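import Mathlib
import Fermat.Prelude.Def_CuspForm_HeckeGaloisRepDatum
import Fermat.Prelude.Def_GaloisRep_LocalConditions

/-!
# Interfaces for the reduction of S31 / S34

* `FrobPowerDense`: Frobenius density in the existence form (powers of Frobenius lifts are dense).
* `TorsionHeckeData p N S`: finite level torsion modules `M n` (think `J₀(N)[p ^ n]`) with commuting
  actions of the absolute Galois group and of the Hecke algebra, the Eichler-Shimura relation for
  Frobenius lifts at primes outside `S`, and `p`-adic faithfulness of the Hecke action.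
-/

set_option autoImplicit false

namespace Fermat.Agent.Gateway.S31Red

local notation "Γℚ" => (AlgebraicClosure ℚ ≃ₐ[ℚ] AlgebraicClosure ℚ)

/-- Frobenius density, existence form: every element of the absolute Galois group agrees on any
given finite extension with a power of a Frobenius lift at a prime outside any given finite set. -/
def FrobPowerDense : Prop :=
  ∀ (L : IntermediateField ℚ (AlgebraicClosure ℚ)), FiniteDimensional ℚ L →
    ∀ (g : Γℚ) (bad : Finset ℕ),
      ∃ ℓ : ℕ, ℓ.Prime ∧ ℓ ∉ bad ∧ ∃ A : ValuationSubring (AlgebraicClosure ℚ),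
        A.LiesOverPrime ℓ ∧ ∃ σ : Γℚ, A.IsFrobeniusAt σ ℓ ∧
          ∃ k : ℕ, ∀ x ∈ L, (σ ^ k) x = g x

/-- Finite level torsion data with Galois and Hecke actions. -/
structure TorsionHeckeData (p N : ℕ) [NeZero N] (S : Finset ℕ) : Type 1 where
  /-- the `p ^ n`-torsion module -/
  M : ℕ → Type
  [instAddCommGroup : ∀ n, AddCommGroup (M n)]
  pow_smul : ∀ (n : ℕ) (x : M n), (p ^ n) • x = 0
  /-- the Galois action -/
  gal : ∀ n, Γℚ →* AddMonoid.End (M n)
  gal_level : ∀ n, ∃ L : IntermediateField ℚ (AlgebraicClosure ℚ), FiniteDimensional ℚ L ∧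
    ∀ σ : Γℚ, (∀ x ∈ L, σ x = x) → gal n σ = 1
  /-- the Hecke action -/
  hecke : ∀ n, CuspForm.heckeAlgebra N 2 (↑S : Set ℕ) →+* AddMonoid.End (M n)
  comm : ∀ (n : ℕ) (σ : Γℚ) (t : CuspForm.heckeAlgebra N 2 (↑S : Set ℕ)),
    Commute (gal n σ) (hecke n t)
  eichlerShimura : ∀ (n ℓ : ℕ) (hℓ : ℓ.Prime) (hℓN : ¬ ℓ ∣ N) (hℓS : ℓ ∉ (↑S : Set ℕ))
    (A : ValuationSubring (AlgebraicClosure ℚ)), A.LiesOverPrime ℓ →
    ∀ σ : Γℚ, A.IsFrobeniusAt σ ℓ →
      gal n σ * gal n σ - hecke n (CuspForm.heckeAlgebra.T hℓ hℓN hℓS) * gal n σ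
        + (ℓ : AddMonoid.End (M n)) = 0
  faithful : ∃ c0 : ℕ, ∀ (y : CuspForm.heckeAlgebra N 2 (↑S : Set ℕ)) (n : ℕ),
    hecke (n + c0) y = 0 → ∃ y' : CuspForm.heckeAlgebra N 2 (↑S : Set ℕ), y = ((p : ℤ) ^ n) • y'

attribute [instance] TorsionHeckeData.instAddCommGroup

namespace TorsionHeckeData

variable {p N : ℕ} [NeZero N] {S : Finset ℕ}

/-- Inertia at every prime outside `S` acts trivially on all torsion levels. -/
def IsUnramifiedOutside (D : TorsionHeckeData p N S) : Prop :=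
  ∀ (n q : ℕ), q.Prime → q ∉ S → ∀ P : ValuationSubring (AlgebraicClosure ℚ),
    P.LiesOverPrime q → ∀ τ ∈ P.inertiaSubgroupIn ℚ, D.gal n τ = 1

/-- Inertia at `q` acts unipotently (of level two) on all torsion levels. -/
def IsSemistableAt (D : TorsionHeckeData p N S) (q : ℕ) : Prop :=
  ∀ (n : ℕ), ∀ P : ValuationSubring (AlgebraicClosure ℚ),
    P.LiesOverPrime q → ∀ τ ∈ P.inertiaSubgroupIn ℚ,
      (D.gal n τ - 1) * (D.gal n τ - 1) = 0

end TorsionHeckeData

end Fermat.Agent.Gateway.S31Red
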