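import Mathlib
import Fermat.Prelude.Def_EllipticCurve_FrobeniusTrace
import Fermat.Prelude.Def_FLTPrelim_Ramification
import Fermat.Agent.Lib.FrobeniusValuation

/-!
# Frobenius lifts and inertia on roots of unity

For a valuation subring `A` of a field `L` lying over the prime `ℓ`:
* a Frobenius lift at `A` raises every root of unity of order prime to `ℓ` to the `ℓ`-th power;
* the inertia group of `A` fixes every root of unity of order prime to `ℓ`.
-/

set_option autoImplicit false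

namespace Fermat.Agent.Gateway.S31Red

open Fermat.Agent.Lib

section General

variable {L : Type*} [Field L]

theorem rootOfUnity_mem (A : ValuationSubring L) {m : ℕ} (hm0 : m ≠ 0) {ζ : L}
    (hζ : ζ ^ m = 1) : ζ ∈ A := by
  rw [← A.valuation_le_one_iff]
  have h1 : A.valuation ζ ^ m = 1 := by rw [← map_pow, hζ, map_one]
  exact le_of_not_gt fun hlt => (one_lt_pow₀ hlt hm0).ne' h1

/-- Reduction modulo the maximal ideal is injective on `m`-th roots of unity when `m` is a unit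
of the valuation ring. -/
theorem rootOfUnity_eq_of_sub_mem_nonunits (A : ValuationSubring L) {m : ℕ}
    (hm : (m : L) ∉ A.nonunits) {ζ ζ' : L} (hζ : ζ ^ m = 1) (hζ' : ζ' ^ m = 1)
    (h : ζ - ζ' ∈ A.nonunits) : ζ = ζ' := by
  have hm0 : m ≠ 0 := by
    rintro rfl
    apply hm
    rw [Nat.cast_zero, ValuationSubring.mem_nonunits_iff, map_zero]
    exact zero_lt_one
  have hζ'0 : ζ' ≠ 0 := by
    rintro rfl
    rw [zero_pow hm0] at hζ'
    exact zero_ne_one hζ'
  have hζ'invA : ζ'⁻¹ ∈ A :=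
    rootOfUnity_mem A hm0 (by rw [inv_pow, hζ', inv_one])
  set η := ζ * ζ'⁻¹ with hη
  have hηm : η ^ m = 1 := by rw [hη, mul_pow, inv_pow, hζ, hζ', inv_one, mul_one]
  have hηA : η ∈ A := rootOfUnity_mem A hm0 hηm
  have hη1 : η - 1 ∈ A.nonunits := by
    have : η - 1 = (ζ - ζ') * ζ'⁻¹ := by
      rw [hη, sub_mul, mul_inv_cancel₀ hζ'0]
    rw [this]
    exact mul_mem_nonunits_of_mem A h hζ'invA
  by_contra hne
  have hηne : η ≠ 1 := by
    intro h1
    apply hne
    have : ζ = η * ζ' := by rw [hη, mul_assoc, inv_mul_cancel₀ hζ'0, mul_one]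
    rw [this, h1, one_mul]
  -- the geometric sum vanishes
  have hgeom : ∑ i ∈ Finset.range m, η ^ i = 0 := by
    have := mul_neg_geom_sum η m
    rw [hηm, sub_self] at this
    rcases mul_eq_zero.mp this with h0 | h0
    · exact absurd (by linear_combination -h0 : η = 1) hηne
    · exact h0
  -- each `η ^ i - 1` is a nonunit
  have hpow : ∀ i : ℕ, η ^ i - 1 ∈ A.nonunits := by
    intro i
    have : η ^ i - 1 = (η - 1) * ∑ j ∈ Finset.range i, η ^ j := by
      rw [mul_comm]; exact (geom_sum_mul η i).symm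
    rw [this]
    refine mul_mem_nonunits_of_mem A hη1 ?_
    exact Subring.sum_mem A.toSubring fun j _ => pow_mem hηA j
  apply hm
  have hsum : (m : L) = -∑ i ∈ Finset.range m, (η ^ i - 1) := by
    rw [Finset.sum_sub_distrib, hgeom]
    simp
  rw [hsum, ValuationSubring.mem_nonunits_iff, Valuation.map_neg]
  refine Valuation.map_sum_lt _ one_ne_zero fun i _ => ?_
  exact (A.mem_nonunits_iff).mp (hpow i)

theorem natCast_not_mem_nonunits (A : ValuationSubring L) {ℓ : ℕ} (hℓ : ℓ.Prime)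
    (hA : A.LiesOverPrime ℓ) {m : ℕ} (hm : ¬ ℓ ∣ m) : (m : L) ∉ A.nonunits := by
  have h := intCast_not_mem_nonunits A hℓ hA (a := (m : ℤ)) (by exact_mod_cast hm)
  simpa using h

end General

section Galois

variable {K L : Type*} [Field K] [Field L] [Algebra K L]

/-- A Frobenius lift is congruent to the `ℓ`-th power map on the valuation ring. -/
theorem frob_sub_pow_mem_nonunits {A : ValuationSubring L} {σ : L ≃ₐ[K] L} {ℓ : ℕ}
    (h : A.IsFrobeniusAt σ ℓ) {x : L} (hx : x ∈ A) : σ x - x ^ ℓ ∈ A.nonunits := by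
  obtain ⟨hσ, hfrob⟩ := h
  have h1 := hfrob (IsLocalRing.residue A ⟨x, hx⟩)
  rw [← IsLocalRing.ResidueField.residue_smul, ← map_pow, ← sub_eq_zero, ← map_sub,
    IsLocalRing.residue_eq_zero_iff, ← ValuationSubring.coe_mem_nonunits_iff] at h1
  exact h1

/-- Inertia acts trivially modulo the maximal ideal. -/
theorem sub_mem_nonunits_of_mem_inertia {A : ValuationSubring L} {τ : L ≃ₐ[K] L}
    (h : τ ∈ A.inertiaSubgroupIn K) {x : L} (hx : x ∈ A) : τ x - x ∈ A.nonunits := by
  obtain ⟨τ', hτ', rfl⟩ := h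
  have hker : MulSemiringAction.toRingAut (A.decompositionSubgroup K)
      (IsLocalRing.ResidueField A) τ' = 1 := hτ'
  have h1 : τ' • (IsLocalRing.residue A ⟨x, hx⟩) = IsLocalRing.residue A ⟨x, hx⟩ := by
    have := congrArg (fun f : RingAut (IsLocalRing.ResidueField A) =>
      f (IsLocalRing.residue A ⟨x, hx⟩)) hker
    simpa using this
  rw [← IsLocalRing.ResidueField.residue_smul, ← sub_eq_zero, ← map_sub,
    IsLocalRing.residue_eq_zero_iff, ← ValuationSubring.coe_mem_nonunits_iff] at h1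
  exact h1

/-- A Frobenius lift at `ℓ` raises roots of unity of order prime to `ℓ` to the `ℓ`-th power. -/
theorem frob_apply_rootOfUnity {A : ValuationSubring L} {σ : L ≃ₐ[K] L} {ℓ : ℕ}
    (hℓ : ℓ.Prime) (hA : A.LiesOverPrime ℓ) (h : A.IsFrobeniusAt σ ℓ) {m : ℕ} (hm : ¬ ℓ ∣ m)
    {ζ : L} (hζ : ζ ^ m = 1) : σ ζ = ζ ^ ℓ := by
  have hm0 : m ≠ 0 := by rintro rfl; exact hm (dvd_zero _)
  refine rootOfUnity_eq_of_sub_mem_nonunits A (natCast_not_mem_nonunits A hℓ hA hm) ?_ ?_
    (frob_sub_pow_mem_nonunits h (rootOfUnity_mem A hm0 hζ))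
  · rw [← map_pow, hζ, map_one]
  · rw [← pow_mul, mul_comm, pow_mul, hζ, one_pow]

/-- Inertia at `q` fixes roots of unity of order prime to `q`. -/
theorem apply_rootOfUnity_of_mem_inertia {A : ValuationSubring L} {τ : L ≃ₐ[K] L} {q : ℕ}
    (hq : q.Prime) (hA : A.LiesOverPrime q) (h : τ ∈ A.inertiaSubgroupIn K) {m : ℕ}
    (hm : ¬ q ∣ m) {ζ : L} (hζ : ζ ^ m = 1) : τ ζ = ζ := by
  have hm0 : m ≠ 0 := by rintro rfl; exact hm (dvd_zero _)
  refine rootOfUnity_eq_of_sub_mem_nonunits A (natCast_not_mem_nonunits A hq hA hm) ?_ hζ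
    (sub_mem_nonunits_of_mem_inertia h (rootOfUnity_mem A hm0 hζ))
  rw [← map_pow, hζ, map_one]

/-- Powers of a Frobenius lift on roots of unity. -/
theorem frob_pow_apply_rootOfUnity {A : ValuationSubring L} {σ : L ≃ₐ[K] L} {ℓ : ℕ}
    (hℓ : ℓ.Prime) (hA : A.LiesOverPrime ℓ) (h : A.IsFrobeniusAt σ ℓ) {m : ℕ} (hm : ¬ ℓ ∣ m)
    {ζ : L} (hζ : ζ ^ m = 1) (k : ℕ) : (σ ^ k) ζ = ζ ^ (ℓ ^ k) := by
  induction k generalizing ζ with
  | zero => simp
  | succ k ih =>
    rw [pow_succ, AlgEquiv.mul_apply, frob_apply_rootOfUnity hℓ hA h hm hζ,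
      ih (by rw [← pow_mul, mul_comm, pow_mul, hζ, one_pow]), ← pow_mul, pow_succ, mul_comm]

end Galois

end Fermat.Agent.Gateway.S31Red
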