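import Mathlib

/-!
# Dickson recursion

`dick t d k` is defined by `D_0 = 2`, `D_1 = t`, `D_{k+2} = t D_{k+1} - d D_k`.
* it commutes with ring homomorphisms;
* if `a * a' = 1 = a' * a` and `t = a + d a'` in a ring where `t`, `d` commute with `a, a'`, then
  `D_k(t, d) = a ^ k + d ^ k a' ^ k`;
* if `f ^ 2 = t f - d` for an endomorphism of a free module of rank two with trace `t`, then
  `trace (f ^ k) = D_k(t, d)`.
-/

namespace Fermat.Agent.Gateway.S31Red

/-- The Dickson recursion in a (not necessarily commutative) ring. -/
def dick {R : Type*} [Ring R] (t d : R) : ℕ → R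
  | 0 => 2
  | 1 => t
  | (k + 2) => t * dick t d (k + 1) - d * dick t d k

section Basic

variable {R : Type*} [Ring R] (t d : R)

@[simp] lemma dick_zero : dick t d 0 = 2 := rfl
@[simp] lemma dick_one : dick t d 1 = t := rfl
lemma dick_succ_succ (k : ℕ) : dick t d (k + 2) = t * dick t d (k + 1) - d * dick t d k := rfl

lemma map_dick {R' : Type*} [Ring R'] (φ : R →+* R') (k : ℕ) :
    φ (dick t d k) = dick (φ t) (φ d) k := by
  induction k using Nat.strong_induction_on with
  | _ k ih =>
    match k with
    | 0 => simp [map_ofNat]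
    | 1 => simp
    | (k + 2) =>
      rw [dick_succ_succ, dick_succ_succ, map_sub, map_mul, map_mul, ih (k + 1) (by omega),
        ih k (by omega)]

end Basic

section Units

variable {R : Type*} [Ring R]

/-- If `t = a + d * a'`, `a a' = a' a = 1` and `d` commutes with `a, a'`, then
`D_k(t, d) = a ^ k + d ^ k * a' ^ k`. -/
lemma dick_eq_pow_add {a a' t d : R} (h1 : a * a' = 1) (h2 : a' * a = 1)
    (hda : Commute d a) (hda' : Commute d a') (ht : t = a + d * a') (k : ℕ) :
    dick t d k = a ^ k + d ^ k * a' ^ k := by
  have haa' : Commute a a' := by rw [Commute, SemiconjBy, h1, h2]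
  induction k using Nat.strong_induction_on with
  | _ k ih =>
    match k with
    | 0 => simp; norm_num
    | 1 => simp [ht]
    | (k + 2) =>
      rw [dick_succ_succ, ih (k + 1) (by omega), ih k (by omega), ht]
      have e1 : a * a' ^ (k + 1) = a' ^ k := by
        rw [pow_succ', ← mul_assoc, h1, one_mul]
      have e2 : a' * a ^ (k + 1) = a ^ k := by
        rw [pow_succ', ← mul_assoc, h2, one_mul]
      have c1 : Commute (d ^ (k + 1)) a := (hda.pow_left _)
      have c2 : Commute d (a ^ (k + 1)) := hda.pow_right _
      have c3 : Commute (a') (d ^ (k + 1)) := (hda'.pow_left _).symm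
      calc (a + d * a') * (a ^ (k + 1) + d ^ (k + 1) * a' ^ (k + 1)) - d * (a ^ k + d ^ k * a' ^ k)
          = a * a ^ (k + 1) + a * (d ^ (k + 1) * a' ^ (k + 1)) + d * (a' * a ^ (k + 1))
              + d * a' * (d ^ (k + 1) * a' ^ (k + 1)) - d * a ^ k - d * (d ^ k * a' ^ k) := by
            noncomm_ring
        _ = a ^ (k + 2) + d ^ (k + 1) * (a * a' ^ (k + 1)) + d * a ^ k
              + d * d ^ (k + 1) * (a' * a' ^ (k + 1)) - d * a ^ k - d * (d ^ k * a' ^ k) := by
            rw [e2, ← mul_assoc a, ← c1.eq, mul_assoc (d ^ (k + 1)), mul_assoc d a',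
              ← mul_assoc a' (d ^ (k + 1)), c3.eq, mul_assoc (d ^ (k + 1)) a', ← mul_assoc d,
              ← pow_succ' a]
        _ = a ^ (k + 2) + d ^ (k + 2) * a' ^ (k + 2) := by
            rw [e1, ← pow_succ' d, ← pow_succ' a', ← mul_assoc d (d ^ k), ← pow_succ' d]
            abel

end Units

section Trace

open Polynomial

variable {T V : Type*} [CommRing T] [AddCommGroup V] [Module T V] [Module.Free T V]
  [Module.Finite T V]

/-- Traces of powers of an endomorphism of a rank two free module satisfying a quadratic relation
are given by the Dickson recursion. -/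
lemma trace_pow_eq_dick (hrank : Module.finrank T V = 2) {f : Module.End T V} {t d : T}
    (hf : f * f = t • f - d • (1 : Module.End T V)) (htr : LinearMap.trace T V f = t) (k : ℕ) :
    LinearMap.trace T V (f ^ k) = dick t d k := by
  induction k using Nat.strong_induction_on with
  | _ k ih =>
    match k with
    | 0 =>
      rw [pow_zero, LinearMap.trace_one, hrank, dick_zero]; norm_num
    | 1 => rw [pow_one, htr, dick_one]
    | (k + 2) =>
      have h1 : f ^ (k + 2) = t • f ^ (k + 1) - d • f ^ k := by
        rw [pow_add, pow_two, hf, mul_sub, mul_smul_comm, mul_smul_comm, mul_one, ← pow_succ]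
      rw [h1, map_sub, map_smul, map_smul, ih (k + 1) (by omega), ih k (by omega), dick_succ_succ,
        smul_eq_mul, smul_eq_mul]

/-- Consequences of `charpoly f = X ^ 2 - C t * X + C d` in rank two. -/
lemma of_charpoly_eq [Nontrivial T] (hrank : Module.finrank T V = 2) {f : Module.End T V}
    {t d : T} (hc : LinearMap.charpoly f = X ^ 2 - C t * X + C d) :
    f * f = t • f - d • (1 : Module.End T V) ∧ LinearMap.trace T V f = t ∧
      LinearMap.det f = d := by
  refine ⟨?_, ?_⟩
  · have h := LinearMap.aeval_self_charpoly f
    rw [hc] at h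
    simp only [map_add, map_sub, map_mul, map_pow, aeval_X, aeval_C] at h
    rw [pow_two] at h
    have h2 : f * f = (algebraMap T (Module.End T V)) t * f - (algebraMap T (Module.End T V)) d := by
      rw [← sub_eq_zero]
      rw [← h]; abel
    rw [h2, Algebra.algebraMap_eq_smul_one, Algebra.algebraMap_eq_smul_one, smul_mul_assoc,
      one_mul]
  · let b : Module.Basis (Fin 2) T V := Module.finBasisOfFinrankEq T V hrank
    have h1 : (LinearMap.toMatrix b b f).charpoly = X ^ 2 - C t * X + C d := by
      rw [LinearMap.charpoly_toMatrix, hc]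
    rw [Matrix.charpoly_fin_two] at h1
    have htr : (LinearMap.toMatrix b b f).trace = t := by
      have := congrArg (fun q : T[X] => q.coeff 1) h1
      simp only [coeff_add, coeff_sub, coeff_X_pow, coeff_C_mul, coeff_X_one, coeff_C] at this
      simpa using this
    have hdet : (LinearMap.toMatrix b b f).det = d := by
      have := congrArg (fun q : T[X] => q.coeff 0) h1
      simp only [coeff_add, coeff_sub, coeff_X_pow, coeff_C_mul, coeff_X_zero, coeff_C] at this
      simpa using this
    refine ⟨?_, ?_⟩
    · rw [LinearMap.trace_eq_matrix_trace T b f, htr]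
    · rw [← LinearMap.det_toMatrix b f, hdet]

end Trace

end Fermat.Agent.Gateway.S31Red
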