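import Mathlib

/-!
# Endomorphisms congruent to the identity modulo an ideal

For a finite free module `V` over a commutative ring `T` and an ideal `I`:
* if `f v ∈ I • ⊤` for all `v` then `trace f ∈ I`;
* if `f v - v ∈ I • ⊤` for all `v` then `det f - 1 ∈ I`.
-/

set_option autoImplicit false
set_option linter.unusedSectionVars false

namespace Fermat.Agent.Gateway.S31Red

variable {T V : Type*} [CommRing T] [AddCommGroup V] [Module T V] [Module.Free T V]
  [Module.Finite T V]

lemma repr_mem_of_mem_smul_top {ι : Type*} (b : Module.Basis ι T V) (I : Ideal T) {x : V}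
    (hx : x ∈ I • (⊤ : Submodule T V)) (i : ι) : b.repr x i ∈ I := by
  refine Submodule.smul_induction_on (p := fun x => b.repr x i ∈ I) hx ?_ ?_
  · intro a ha v _
    rw [map_smul, Finsupp.smul_apply, smul_eq_mul]
    exact I.mul_mem_right _ ha
  · intro x y hx hy
    rw [map_add, Finsupp.add_apply]
    exact I.add_mem hx hy

lemma trace_mem_of_forall_mem_smul_top (I : Ideal T) (f : Module.End T V)
    (hf : ∀ v, f v ∈ I • (⊤ : Submodule T V)) : LinearMap.trace T V f ∈ I := by
  classical
  let b := Module.Free.chooseBasis T V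
  rw [LinearMap.trace_eq_matrix_trace T b f, Matrix.trace]
  refine I.sum_mem fun i _ => ?_
  rw [Matrix.diag_apply, LinearMap.toMatrix_apply]
  exact repr_mem_of_mem_smul_top b I (hf _) i

lemma det_sub_one_mem_of_forall_sub_mem_smul_top (I : Ideal T) (f : Module.End T V)
    (hf : ∀ v, f v - v ∈ I • (⊤ : Submodule T V)) : LinearMap.det f - 1 ∈ I := by
  classical
  let b := Module.Free.chooseBasis T V
  rw [← LinearMap.det_toMatrix b f, ← Ideal.Quotient.eq, map_one, RingHom.map_det]
  have : (Ideal.Quotient.mk I).mapMatrix (LinearMap.toMatrix b b f) = 1 := by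
    ext i j
    rw [RingHom.mapMatrix_apply, Matrix.map_apply, LinearMap.toMatrix_apply]
    have h1 := repr_mem_of_mem_smul_top b I (hf (b j)) i
    rw [map_sub, Finsupp.sub_apply, Module.Basis.repr_self, ← Ideal.Quotient.eq] at h1
    rw [h1, Matrix.one_apply, Finsupp.single_apply]
    by_cases hij : i = j
    · subst hij; simp
    · rw [if_neg (Ne.symm hij), if_neg hij, map_zero]
  rw [this, Matrix.det_one]

end Fermat.Agent.Gateway.S31Red
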