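import Mathlib
import Fermat.Agent.Gateway.S31.Data
import Fermat.Agent.Gateway.S31.Dickson
import Fermat.Agent.Gateway.S31.Congruence
import Fermat.Agent.Gateway.S31.RootsOfUnity

/-!
# The level `n` approximation

For a Hecke-Galois datum `H`, torsion data `D` and `g` in the absolute Galois group, Frobenius
density produces a Hecke operator `y` and an exponent `e` with
`trace ρ(g) ≡ π y`, `det ρ(g) ≡ e` modulo `m_T ^ n`, `y = g + e g⁻¹` on `D.M n`, and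
`g ζ = ζ ^ e` on `p ^ n`-th roots of unity.
-/

set_option autoImplicit false

namespace Fermat.Agent.Gateway.S31Red

open Polynomial

local notation "Γℚ" => (AlgebraicClosure ℚ ≃ₐ[ℚ] AlgebraicClosure ℚ)

variable {p : ℕ} {N : ℕ} [NeZero N] {S : Finset ℕ}
  {𝒪 : Type} [CommRing 𝒪] [IsDomain 𝒪] [IsDiscreteValuationRing 𝒪]
  [IsAdicComplete (IsLocalRing.maximalIdeal 𝒪) 𝒪]
  {θ : CuspForm.heckeAlgebra N 2 (↑S : Set ℕ) →+* IsLocalRing.ResidueField 𝒪}
  {T : Type} [CommRing T] [IsLocalRing T] [IsNoetherianRing T]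
  [IsAdicComplete (IsLocalRing.maximalIdeal T) T] [Algebra 𝒪 T] [IsLocalHom (algebraMap 𝒪 T)]
  [Module.Finite 𝒪 T] [Module.Free 𝒪 T]

theorem isAlgebraic_algebraicClosure_rat :
    @Algebra.IsAlgebraic ℚ (AlgebraicClosure ℚ) _ _ DivisionRing.toRatAlgebra := by
  have h : (DivisionRing.toRatAlgebra : Algebra ℚ (AlgebraicClosure ℚ)) =
      AlgebraicClosure.instAlgebra ℚ := Subsingleton.elim _ _
  rw [h]
  infer_instance

/-- The finite extension generated by a primitive `m`-th root of unity contains all `m`-th roots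
of unity, and is finite dimensional. -/
lemma exists_cyclotomic_level (m : ℕ) (hm : m ≠ 0) :
    ∃ L : IntermediateField ℚ (AlgebraicClosure ℚ), FiniteDimensional ℚ L ∧
      ∀ ζ : AlgebraicClosure ℚ, ζ ^ m = 1 → ζ ∈ L := by
  have : NeZero m := ⟨hm⟩
  have := isAlgebraic_algebraicClosure_rat
  obtain ⟨ζ0, hζ0⟩ := HasEnoughRootsOfUnity.exists_primitiveRoot (AlgebraicClosure ℚ) m
  refine ⟨IntermediateField.adjoin ℚ {ζ0}, ?_, ?_⟩
  · exact IntermediateField.adjoin.finiteDimensional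
      (Algebra.IsAlgebraic.isAlgebraic (R := ℚ) ζ0).isIntegral
  · intro ζ hζ
    obtain ⟨i, -, rfl⟩ := hζ0.eq_pow_of_pow_eq_one hζ
    exact pow_mem (IntermediateField.mem_adjoin_simple_self ℚ ζ0) i

/-- The level `n` approximation. -/
theorem exists_approx (hF : FrobPowerDense) (hp : p.Prime) (hpS : p ∈ S)
    (hNS : ∀ q : ℕ, q.Prime → q ∣ N → q ∈ S)
    (H : CuspForm.HeckeGaloisRepDatum N (↑S : Set ℕ) 𝒪 θ T) (D : TorsionHeckeData p N S)
    (g : Γℚ) (n : ℕ) :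
    ∃ (y : CuspForm.heckeAlgebra N 2 (↑S : Set ℕ)) (e : ℕ),
      LinearMap.trace T H.ρ.V (H.ρ.ρ g) - H.π y ∈ IsLocalRing.maximalIdeal T ^ n ∧
      LinearMap.det (H.ρ.ρ g) - (e : T) ∈ IsLocalRing.maximalIdeal T ^ n ∧
      D.hecke n y = D.gal n g + (e : AddMonoid.End (D.M n)) * D.gal n g⁻¹ ∧
      ∀ ζ : AlgebraicClosure ℚ, ζ ^ (p ^ n) = 1 → g ζ = ζ ^ e := by
  classical
  obtain ⟨L1, hL1fd, hL1⟩ := H.ρ.isAdicContinuous n
  obtain ⟨L2, hL2fd, hL2⟩ := D.gal_level n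
  obtain ⟨L3, hL3fd, hL3⟩ := exists_cyclotomic_level (p ^ n) (pow_ne_zero n hp.ne_zero)
  have := hL1fd
  have := hL2fd
  have := hL3fd
  obtain ⟨ℓ, hℓ, hℓS, A, hA, σ, hσ, k, hk⟩ := hF (L1 ⊔ L2 ⊔ L3) inferInstance g S
  have hℓS' : ℓ ∉ (↑S : Set ℕ) := by simpa using hℓS
  have hℓN : ¬ ℓ ∣ N := fun h => hℓS (hNS ℓ hℓ h)
  have hℓp : ℓ ≠ p := fun h => hℓS (h ▸ hpS)
  have hℓpn : ¬ ℓ ∣ p ^ n := fun h =>
    hℓp ((Nat.prime_dvd_prime_iff_eq hℓ hp).mp (hℓ.dvd_of_dvd_pow h))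
  -- `h = (σ ^ k)⁻¹ * g` fixes the three fields
  set h : Γℚ := (σ ^ k)⁻¹ * g with hh
  have hg : g = σ ^ k * h := by rw [hh, mul_inv_cancel_left]
  have hfix : ∀ x ∈ L1 ⊔ L2 ⊔ L3, h x = x := by
    intro x hx
    rw [hh, AlgEquiv.mul_apply, ← hk x hx]
    show (σ ^ k)⁻¹ ((σ ^ k) x) = x
    rw [← AlgEquiv.mul_apply, inv_mul_cancel, AlgEquiv.one_apply]
  have hfix1 : ∀ x ∈ L1, h x = x := fun x hx =>
    hfix x ((le_sup_left : L1 ≤ L1 ⊔ L2).trans le_sup_left hx)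
  have hfix2 : ∀ x ∈ L2, h x = x := fun x hx =>
    hfix x ((le_sup_right : L2 ≤ L1 ⊔ L2).trans le_sup_left hx)
  -- notation
  set Tℓ : CuspForm.heckeAlgebra N 2 (↑S : Set ℕ) := CuspForm.heckeAlgebra.T hℓ hℓN hℓS' with hTℓ
  refine ⟨dick Tℓ (ℓ : CuspForm.heckeAlgebra N 2 (↑S : Set ℕ)) k, ℓ ^ k, ?_, ?_, ?_, ?_⟩
  · -- trace
    have hc := H.charpoly_frob ℓ hℓ hℓN hℓS' A hA σ hσ
    obtain ⟨hsq, htr, -⟩ := of_charpoly_eq H.ρ.finrank_eq hc
    have h1 : LinearMap.trace T H.ρ.V (H.ρ.ρ (σ ^ k))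
        = H.π (dick Tℓ (ℓ : CuspForm.heckeAlgebra N 2 (↑S : Set ℕ)) k) := by
      rw [map_pow, trace_pow_eq_dick H.ρ.finrank_eq hsq htr, map_dick, map_natCast]
    rw [← h1, ← map_sub]
    have h2 : H.ρ.ρ g - H.ρ.ρ (σ ^ k) = H.ρ.ρ (σ ^ k) * (H.ρ.ρ h - 1) := by
      rw [hg, map_mul, mul_sub, mul_one]
    rw [h2]
    refine trace_mem_of_forall_mem_smul_top _ _ fun v => ?_
    rw [Module.End.mul_apply, LinearMap.sub_apply, Module.End.one_apply]
    have h3 := hL1 h hfix1 v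
    refine Submodule.smul_induction_on (p := fun x => H.ρ.ρ (σ ^ k) x ∈
      (IsLocalRing.maximalIdeal T ^ n) • (⊤ : Submodule T H.ρ.V)) h3 ?_ ?_
    · intro a ha w _
      rw [map_smul]
      exact Submodule.smul_mem_smul ha Submodule.mem_top
    · intro x y hx hy
      rw [map_add]
      exact Submodule.add_mem _ hx hy
  · -- det
    have hc := H.charpoly_frob ℓ hℓ hℓN hℓS' A hA σ hσ
    obtain ⟨-, -, hdet⟩ := of_charpoly_eq H.ρ.finrank_eq hc
    have h1 : LinearMap.det (H.ρ.ρ g) = ((ℓ ^ k : ℕ) : T) * LinearMap.det (H.ρ.ρ h) := by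
      rw [hg, map_mul, map_mul, map_pow, map_pow, hdet, Nat.cast_pow]
    have h2 := det_sub_one_mem_of_forall_sub_mem_smul_top (IsLocalRing.maximalIdeal T ^ n)
      (H.ρ.ρ h) (hL1 h hfix1)
    have h3 : LinearMap.det (H.ρ.ρ g) - ((ℓ ^ k : ℕ) : T)
        = ((ℓ ^ k : ℕ) : T) * (LinearMap.det (H.ρ.ρ h) - 1) := by
      rw [h1]; ring
    rw [h3]
    exact Ideal.mul_mem_left _ _ h2
  · -- Hecke action on the torsion level
    set a := D.gal n σ with ha
    set a' := D.gal n σ⁻¹ with ha'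
    have haa' : a * a' = 1 := by rw [ha, ha', ← map_mul, mul_inv_cancel, map_one]
    have ha'a : a' * a = 1 := by rw [ha, ha', ← map_mul, inv_mul_cancel, map_one]
    set d : AddMonoid.End (D.M n) := (ℓ : AddMonoid.End (D.M n)) with hd
    have hES := D.eichlerShimura n ℓ hℓ hℓN hℓS' A hA σ hσ
    have hcomm : Commute a (D.hecke n Tℓ) := D.comm n σ Tℓ
    have ht : D.hecke n Tℓ = a + d * a' := by
      have h1 : (a * a - D.hecke n Tℓ * a + d) * a' = 0 := by rw [hES, zero_mul]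
      have h2 : (a * a - D.hecke n Tℓ * a + d) * a' = a - D.hecke n Tℓ + d * a' := by
        rw [add_mul, sub_mul, mul_assoc, haa', mul_one, mul_assoc, haa', mul_one]
      rw [h2] at h1
      have : D.hecke n Tℓ = a + d * a' := by
        have := h1
        rw [sub_add_eq_add_sub, sub_eq_zero] at this
        exact this.symm
      exact this
    have hdick := dick_eq_pow_add haa' ha'a (Nat.cast_commute ℓ a) (Nat.cast_commute ℓ a') ht k
    rw [map_dick, map_natCast, hdick]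
    have hgk : D.gal n g = a ^ k := by
      rw [hg, map_mul, hL2 h hfix2, mul_one, map_pow]
    have hgk' : D.gal n g⁻¹ = a' ^ k := by
      have : g⁻¹ = h⁻¹ * (σ⁻¹) ^ k := by rw [hg, mul_inv_rev, inv_pow]
      rw [this, map_mul, map_pow]
      have hh1 : D.gal n h⁻¹ = 1 := by
        have : D.gal n h⁻¹ * D.gal n h = 1 := by rw [← map_mul, inv_mul_cancel, map_one]
        rwa [hL2 h hfix2, mul_one] at this
      rw [hh1, one_mul]
    rw [hgk, hgk', Nat.cast_pow]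
  · -- roots of unity
    intro ζ hζ
    have hζL : ζ ∈ L1 ⊔ L2 ⊔ L3 := (le_sup_right : L3 ≤ L1 ⊔ L2 ⊔ L3) (hL3 ζ hζ)
    rw [← hk ζ hζL]
    exact frob_pow_apply_rootOfUnity hℓ hA hσ hℓpn hζ k

end Fermat.Agent.Gateway.S31Red
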