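import Mathlib
import Fermat.Prelude.Def_GaloisRep_Adic
import Fermat.Agent.S53.Burnside

/-!
# The trace lemma

If `ρ` is a rank two representation over a local ring `T` with absolutely irreducible residual
representation and `trace (ρ g * ρ τ) = trace (ρ g)` for all `g`, then `ρ τ = 1`.
-/

set_option autoImplicit false

namespace Fermat.Agent.Gateway.S31Red

open scoped TensorProduct

local notation "Γℚ" => (AlgebraicClosure ℚ ≃ₐ[ℚ] AlgebraicClosure ℚ)

section Matrix

variable {T : Type*} [CommRing T] [IsLocalRing T]

/-- Nakayama for the ideal of entries: a `2 × 2` matrix `X` such that for every `i j` there is a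
matrix `N` with entries in the maximal ideal and `X j i + trace (N * X) = 0` vanishes. -/
lemma matrix_eq_zero_of_forall_exists (X : Matrix (Fin 2) (Fin 2) T)
    (h : ∀ i j : Fin 2, ∃ N : Matrix (Fin 2) (Fin 2) T,
      (∀ a b, N a b ∈ IsLocalRing.maximalIdeal T) ∧ X j i + (N * X).trace = 0) :
    X = 0 := by
  classical
  set J : Ideal T := Ideal.span (Set.range fun ij : Fin 2 × Fin 2 => X ij.1 ij.2) with hJ
  have hmem : ∀ a b, X a b ∈ J := fun a b => Ideal.subset_span ⟨(a, b), rfl⟩
  have hfg : (J : Submodule T T).FG := Submodule.fg_span (Set.finite_range _)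
  have hle : J ≤ IsLocalRing.maximalIdeal T • J := by
    rw [hJ, Ideal.span_le]
    rintro _ ⟨⟨j, i⟩, rfl⟩
    obtain ⟨N, hN, hNX⟩ := h i j
    have hx : X j i = -(N * X).trace := by
      have := hNX; linear_combination this
    show X j i ∈ IsLocalRing.maximalIdeal T • Ideal.span _
    rw [hx]
    refine neg_mem ?_
    rw [Matrix.trace]
    refine Submodule.sum_mem _ fun a _ => ?_
    rw [Matrix.diag_apply, Matrix.mul_apply]
    refine Submodule.sum_mem _ fun b _ => ?_
    exact Submodule.smul_mem_smul (hN a b) (hmem b a)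
  have hbot : J = ⊥ :=
    Submodule.eq_bot_of_le_smul_of_le_jacobson_bot (IsLocalRing.maximalIdeal T) J hfg hle
      (IsLocalRing.maximalIdeal_le_jacobson _)
  ext a b
  have := hmem a b
  rw [hbot, Ideal.mem_bot] at this
  simpa using this

end Matrix

section Rep

variable {T : Type} [CommRing T] [IsLocalRing T]

/-- The trace lemma. -/
theorem eq_one_of_trace_mul_eq (ρ : GaloisRepAdic T)
    (habs : ρ.residual.IsAbsolutelyIrreducible) (τ : Γℚ)
    (h : ∀ g : Γℚ, LinearMap.trace T ρ.V (ρ.ρ g * ρ.ρ τ) = LinearMap.trace T ρ.V (ρ.ρ g)) :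
    ρ.ρ τ = 1 := by
  classical
  let k := IsLocalRing.ResidueField T
  let b : Module.Basis (Fin 2) T ρ.V := Module.finBasisOfFinrankEq T ρ.V ρ.finrank_eq
  let bk : Module.Basis (Fin 2) k ρ.residual.V := Algebra.TensorProduct.basis k b
  let R : Γℚ → Matrix (Fin 2) (Fin 2) T := fun g => LinearMap.toMatrix b b (ρ.ρ g)
  have hres : ∀ g, Fermat.Agent.S53.resMat ρ.residual bk g = (R g).map (algebraMap T k) := by
    intro g
    rw [Fermat.Agent.S53.resMat_apply]
    exact LinearMap.toMatrix_baseChange k (ρ.ρ g) b b
  have hspan := Fermat.Agent.S53.span_range_resMat_eq_top ρ.residual habs bk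
  have hsurj : Function.Surjective (algebraMap T k) := IsLocalRing.residue_surjective
  set X : Matrix (Fin 2) (Fin 2) T := R τ - 1 with hX
  have htr : ∀ g, (R g * X).trace = 0 := by
    intro g
    have h1 := h g
    rw [LinearMap.trace_eq_matrix_trace T b, LinearMap.trace_eq_matrix_trace T b,
      LinearMap.toMatrix_mul] at h1
    rw [hX, mul_sub, mul_one, Matrix.trace_sub, h1, sub_self]
  have hX0 : X = 0 := by
    refine matrix_eq_zero_of_forall_exists X fun i j => ?_
    obtain ⟨x, hx⟩ := Fermat.Agent.S53.exists_gaEval_eq_of_mem_span (𝒪 := T) hsurj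
      (Fermat.Agent.S53.resMat ρ.residual bk) (Matrix.single i j (1 : k))
      (hspan ▸ Submodule.mem_top)
    -- the lifted combination
    set Y : Matrix (Fin 2) (Fin 2) T := x.sum fun g c => c • R g with hY
    have hYmap : Y.map (algebraMap T k) = Matrix.single i j (1 : k) := by
      rw [← hx]
      unfold Fermat.Agent.S53.gaEval
      rw [hY]
      unfold Finsupp.sum
      have hadd : ∀ (s : Finset Γℚ) (F : Γℚ → Matrix (Fin 2) (Fin 2) T),
          (∑ g ∈ s, F g).map (algebraMap T k) = ∑ g ∈ s, (F g).map (algebraMap T k) := by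
        intro s F
        exact map_sum ((algebraMap T k : T →+ k).mapMatrix :
          Matrix (Fin 2) (Fin 2) T →+ Matrix (Fin 2) (Fin 2) k) F s
      rw [hadd]
      refine Finset.sum_congr rfl fun g _ => ?_
      show (x g • R g).map (algebraMap T k)
        = algebraMap T k (x g) • Fermat.Agent.S53.resMat ρ.residual bk g
      rw [hres g]
      ext a c
      simp [Matrix.map_apply, Matrix.smul_apply]
    have hYtr : (Y * X).trace = 0 := by
      rw [hY]
      unfold Finsupp.sum
      rw [Finset.sum_mul, Matrix.trace_sum]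
      refine Finset.sum_eq_zero fun g _ => ?_
      rw [Matrix.smul_mul, Matrix.trace_smul, htr g, smul_zero]
    refine ⟨Y - Matrix.single i j (1 : T), fun a c => ?_, ?_⟩
    · rw [← IsLocalRing.residue_eq_zero_iff]
      have := congrFun (congrFun hYmap a) c
      rw [Matrix.map_apply] at this
      show algebraMap T k ((Y - Matrix.single i j (1 : T)) a c) = 0
      rw [Matrix.sub_apply, map_sub, this]
      by_cases hac : i = a ∧ j = c
      · obtain ⟨rfl, rfl⟩ := hac
        simp
      · rw [Matrix.single_apply, Matrix.single_apply, if_neg hac, if_neg hac, map_zero, sub_zero]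
    · rw [sub_mul, Matrix.trace_sub, hYtr, zero_sub]
      have : (Matrix.single i j (1 : T) * X).trace = X j i := by
        rw [Matrix.trace]
        simp [Matrix.diag_apply, Matrix.mul_apply, Matrix.single_apply, Fin.sum_univ_two]
        fin_cases i <;> fin_cases j <;> simp
      rw [this]; ring
  have hR : R τ = 1 := by rw [← sub_eq_zero]; exact hX0
  have : LinearMap.toMatrix b b (ρ.ρ τ) = LinearMap.toMatrix b b (1 : Module.End T ρ.V) := by
    rw [LinearMap.toMatrix_one]; exact hR
  exact (LinearMap.toMatrix b b).injective this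

end Rep

end Fermat.Agent.Gateway.S31Red
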