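import Mathlib
import Fermat.Agent.Gateway.S31Reduction
import Fermat.Agent.Lib.FrobDensity.QbarDefs
import Fermat.Prelude.Def_ModularCurve_HeckeOperatorTotal
import Fermat.Prelude.Def_ModularCurve_ArithmeticGalois

/-!
# S31 from the export contract of the Jacobian team

The export contract (board `GATEWAY_PLAN`, section 2) is written down as Lean definitions:

* `HeckeTorsionAction N S` (E2 + E3): ring homs `eta m` from the cusp form Hecke algebra to the
  endomorphisms of the `m`-torsion of `J₀(N)` over `ℚ̄`, given by `heckeOperatorAlong` on the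
  generators `T_ℓ` (only for `0 < m`), and `p`-adically faithful.
* `GaloisHeckeComm N` (E4), `TorsionUnramified N` (E5), `TorsionEichlerShimura N` (E6),
  `TorsionGalLevel N` (E7).

From these the `TorsionHeckeData` of `Fermat.Agent.Gateway.S31Red` is built, and with Frobenius
density the frozen statement S31 follows (`s31_of_export`).
-/

set_option autoImplicit false

namespace Fermat.Agent.Gateway.S31Red

open ModularCurve AlgebraicCurve CuspForm

local notation "Qb" => AlgebraicClosure ℚ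
local notation "Γℚ" => (AlgebraicClosure ℚ ≃ₐ[ℚ] AlgebraicClosure ℚ)

/-- The two forms of the Frobenius density statement are the same. -/
theorem frobPowerDense_of_lib (h : Fermat.Agent.Lib.FrobDensity.FrobPowerDense) :
    FrobPowerDense := h

/-- The `m`-torsion of `J₀(N)` over `ℚ̄`. -/
abbrev JTors (N m : ℕ) : Type :=
  Pic0.torsion Qb (modularFunctionFieldBar N) m

/-- E2 + E3: the Hecke algebra of cusp forms acts on the torsion of `J₀(N)`, by the
correspondence `heckeOperatorAlong` on the generators, and `p`-adically faithfully. -/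
structure HeckeTorsionAction (N : ℕ) [NeZero N] (S : Finset ℕ) where
  /-- the action on the `m`-torsion, `0 < m` -/
  eta : ∀ m : ℕ, 0 < m → heckeAlgebra N 2 (↑S : Set ℕ) →+* AddMonoid.End (JTors N m)
  eta_T : ∀ (m : ℕ) (hm : 0 < m) (ℓ : ℕ) (hℓ : ℓ.Prime) (hℓN : ¬ ℓ ∣ N)
      (hℓS : ℓ ∉ (↑S : Set ℕ)) (x : JTors N m),
    ((eta m hm (heckeAlgebra.T hℓ hℓN hℓS) x : JTors N m) : JZero N) =
      (haveI : NeZero ℓ := ⟨hℓ.ne_zero⟩; heckeOperatorAlong Qb N ℓ (x : JZero N))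
  faithful : ∀ (p : ℕ) (hp : p.Prime), ∃ c0 : ℕ, ∀ (y : heckeAlgebra N 2 (↑S : Set ℕ)) (n : ℕ),
    eta (p ^ (n + c0)) (pow_pos hp.pos _) y = 0 →
      ∃ y' : heckeAlgebra N 2 (↑S : Set ℕ), y = ((p : ℤ) ^ n) • y'

/-- E4: the Galois action on `J₀(N)` commutes with the Hecke correspondences. -/
def GaloisHeckeComm (N : ℕ) [NeZero N] : Prop :=
  ∀ (ℓ : ℕ) (hℓ : ℓ.Prime), ¬ ℓ ∣ N → ∀ (σ : Γℚ) (x : JZero N),
    haveI : NeZero ℓ := ⟨hℓ.ne_zero⟩
    σ • heckeOperatorAlong Qb N ℓ x = heckeOperatorAlong Qb N ℓ (σ • x)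

/-- E5: inertia at `ℓ ∤ m N` acts trivially on the `m`-torsion. -/
def TorsionUnramified (N : ℕ) : Prop :=
  ∀ (m ℓ : ℕ), ℓ.Prime → ¬ ℓ ∣ m * N → ∀ A : ValuationSubring Qb, A.LiesOverPrime ℓ →
    ∀ σ ∈ A.inertiaSubgroupIn ℚ, ∀ x : JZero N, m • x = 0 → σ • x = x

/-- E6: the Eichler-Shimura relation for Frobenius lifts at `ℓ ∤ m N` on the `m`-torsion. -/
def TorsionEichlerShimura (N : ℕ) [NeZero N] : Prop :=
  ∀ (m ℓ : ℕ) (hℓ : ℓ.Prime), ¬ ℓ ∣ m * N → ∀ A : ValuationSubring Qb, A.LiesOverPrime ℓ →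
    ∀ φ : Γℚ, A.IsFrobeniusAt φ ℓ → ∀ x : JZero N, m • x = 0 →
      haveI : NeZero ℓ := ⟨hℓ.ne_zero⟩
      φ • φ • x - heckeOperatorAlong Qb N ℓ (φ • x) + ℓ • x = 0

/-- E7: the Galois action on the `m`-torsion factors through a finite extension. -/
def TorsionGalLevel (N : ℕ) : Prop :=
  ∀ m : ℕ, 0 < m → ∃ K : IntermediateField ℚ Qb, FiniteDimensional ℚ K ∧
    ∀ σ : Γℚ, (∀ x ∈ K, σ x = x) → ∀ x : JZero N, m • x = 0 → σ • x = x

section Glue

variable {N : ℕ} [NeZero N] {S : Finset ℕ}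

/-- The Galois action on the `m`-torsion as a monoid hom into the additive endomorphisms. -/
noncomputable def galTors (N m : ℕ) : Γℚ →* AddMonoid.End (JTors N m) where
  toFun σ := (JZero.torsionGaloisRep N m σ).toAddMonoidHom
  map_one' := by
    rw [map_one]; rfl
  map_mul' σ τ := by
    rw [map_mul]; rfl

omit [NeZero N] in
lemma coe_galTors_apply (m : ℕ) (σ : Γℚ) (x : JTors N m) :
    ((galTors N m σ x : JTors N m) : JZero N) = σ • (x : JZero N) := rfl

omit [NeZero N] in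
lemma nsmul_coe_eq_zero {m : ℕ} (x : JTors N m) : m • (x : JZero N) = 0 := by
  have := Pic0.mem_torsion.mp x.2
  rwa [natCast_zsmul] at this

/-- An endomorphism commuting with the images of all `T_ℓ` commutes with the whole Hecke
action (all primes dividing the level being in `S`). -/
lemma commute_eta_of_generators {M : Type*} [AddCommGroup M]
    (hNS : ∀ q : ℕ, q.Prime → q ∣ N → q ∈ S)
    (η : heckeAlgebra N 2 (↑S : Set ℕ) →+* AddMonoid.End M) (a : AddMonoid.End M)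
    (ha : ∀ (ℓ : ℕ) (hℓ : ℓ.Prime) (hℓN : ¬ ℓ ∣ N) (hℓS : ℓ ∉ (↑S : Set ℕ)),
      Commute a (η (heckeAlgebra.T hℓ hℓN hℓS)))
    (t : heckeAlgebra N 2 (↑S : Set ℕ)) : Commute a (η t) := by
  obtain ⟨t, ht⟩ := t
  induction ht using Algebra.adjoin_induction with
  | mem x hx =>
    rcases hx with ⟨ℓ, hℓ, hℓN, hℓS, rfl⟩ | ⟨q, hqN, hq, hqS, rfl⟩
    · exact ha ℓ hℓ hℓN hℓS
    · exact absurd (hNS q hq hqN) hqS
  | algebraMap r =>
    have : (⟨algebraMap ℤ _ r, Subalgebra.algebraMap_mem _ r⟩ : heckeAlgebra N 2 (↑S : Set ℕ))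
        = (r : heckeAlgebra N 2 (↑S : Set ℕ)) := by
      apply Subtype.ext
      simp
    rw [this, map_intCast]
    exact Int.cast_commute r a |>.symm
  | add x y hx hy hx' hy' =>
    have : (⟨x + y, Subalgebra.add_mem _ hx hy⟩ : heckeAlgebra N 2 (↑S : Set ℕ))
        = ⟨x, hx⟩ + ⟨y, hy⟩ := rfl
    rw [this, map_add]
    exact hx'.add_right hy'
  | mul x y hx hy hx' hy' =>
    have : (⟨x * y, Subalgebra.mul_mem _ hx hy⟩ : heckeAlgebra N 2 (↑S : Set ℕ))
        = ⟨x, hx⟩ * ⟨y, hy⟩ := rfl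
    rw [this, map_mul]
    exact hx'.mul_right hy'

/-- The torsion data attached to the export contract. -/
noncomputable def torsionHeckeDataOfExport {p : ℕ} (hp : p.Prime) (hpS : p ∈ S)
    (hNS : ∀ q : ℕ, q.Prime → q ∣ N → q ∈ S)
    (E : HeckeTorsionAction N S) (h4 : GaloisHeckeComm N) (h6 : TorsionEichlerShimura N)
    (h7 : TorsionGalLevel N) : TorsionHeckeData p N S where
  M n := JTors N (p ^ n)
  pow_smul n x := by
    apply Subtype.ext
    rw [AddSubgroupClass.coe_nsmul]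
    exact nsmul_coe_eq_zero x
  gal n := galTors N (p ^ n)
  gal_level n := by
    obtain ⟨K, hK, h⟩ := h7 (p ^ n) (pow_pos hp.pos n)
    refine ⟨K, hK, fun σ hσ => ?_⟩
    ext x
    rw [coe_galTors_apply]
    exact h σ hσ x (nsmul_coe_eq_zero x)
  hecke n := E.eta (p ^ n) (pow_pos hp.pos n)
  comm n σ t := by
    refine commute_eta_of_generators hNS _ _ (fun ℓ hℓ hℓN hℓS => ?_) t
    ext x
    change ((galTors N (p ^ n) σ (E.eta (p ^ n) (pow_pos hp.pos n) (heckeAlgebra.T hℓ hℓN hℓS) x) :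
        JTors N (p ^ n)) : JZero N)
      = ((E.eta (p ^ n) (pow_pos hp.pos n) (heckeAlgebra.T hℓ hℓN hℓS) (galTors N (p ^ n) σ x) :
        JTors N (p ^ n)) : JZero N)
    rw [coe_galTors_apply, E.eta_T _ (pow_pos hp.pos n), E.eta_T _ (pow_pos hp.pos n),
      coe_galTors_apply]
    exact h4 ℓ hℓ hℓN σ x
  eichlerShimura n ℓ hℓ hℓN hℓS A hA σ hσ := by
    have hℓp : ℓ ≠ p := fun h => hℓS (by rw [h]; exact_mod_cast hpS)
    have hdiv : ¬ ℓ ∣ p ^ n * N := by
      intro h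
      rcases (Nat.Prime.dvd_mul hℓ).mp h with h | h
      · exact hℓp ((Nat.prime_dvd_prime_iff_eq hℓ hp).mp (hℓ.dvd_of_dvd_pow h))
      · exact hℓN h
    ext x
    have := h6 (p ^ n) ℓ hℓ hdiv A hA σ hσ x (nsmul_coe_eq_zero x)
    change ((galTors N (p ^ n) σ (galTors N (p ^ n) σ x)
      - E.eta (p ^ n) (pow_pos hp.pos n) (heckeAlgebra.T hℓ hℓN hℓS) (galTors N (p ^ n) σ x)
        + ℓ • x : JTors N (p ^ n)) : JZero N) = 0
    rw [AddSubgroup.coe_add, AddSubgroup.coe_sub, AddSubgroupClass.coe_nsmul,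
      E.eta_T _ (pow_pos hp.pos n), coe_galTors_apply, coe_galTors_apply]
    exact this
  faithful := E.faithful p hp

/-- The torsion data of the export contract is unramified outside `S`. -/
theorem isUnramifiedOutside_of_export {p : ℕ} (hp : p.Prime) (hpS : p ∈ S)
    (hNS : ∀ q : ℕ, q.Prime → q ∣ N → q ∈ S)
    (E : HeckeTorsionAction N S) (h4 : GaloisHeckeComm N) (h5 : TorsionUnramified N)
    (h6 : TorsionEichlerShimura N) (h7 : TorsionGalLevel N) :
    (torsionHeckeDataOfExport hp hpS hNS E h4 h6 h7).IsUnramifiedOutside := by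
  intro n q hq hqS P hP τ hτ
  have hqp : q ≠ p := fun h => hqS (h ▸ hpS)
  have hdiv : ¬ q ∣ p ^ n * N := by
    intro h
    rcases (Nat.Prime.dvd_mul hq).mp h with h | h
    · exact hqp ((Nat.prime_dvd_prime_iff_eq hq hp).mp (hq.dvd_of_dvd_pow h))
    · exact hqS (hNS q hq h)
  change galTors N (p ^ n) τ = 1
  ext x
  rw [coe_galTors_apply]
  exact h5 (p ^ n) q hq hdiv P hP τ hτ x (nsmul_coe_eq_zero x)

end Glue

section Final

variable {p : ℕ} {N : ℕ} [NeZero N] {S : Finset ℕ}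
  {𝒪 : Type} [CommRing 𝒪] [IsDomain 𝒪] [IsDiscreteValuationRing 𝒪]
  [IsAdicComplete (IsLocalRing.maximalIdeal 𝒪) 𝒪]
  {θ : CuspForm.heckeAlgebra N 2 (↑S : Set ℕ) →+* IsLocalRing.ResidueField 𝒪}
  {T : Type} [CommRing T] [IsLocalRing T] [IsNoetherianRing T]
  [IsAdicComplete (IsLocalRing.maximalIdeal T) T] [Algebra 𝒪 T] [IsLocalHom (algebraMap 𝒪 T)]
  [Module.Finite 𝒪 T] [Module.Free 𝒪 T]

/-- The frozen statement S31 from Frobenius density and the export contract E2 - E7. -/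
theorem s31_of_export (hF : Fermat.Agent.Lib.FrobDensity.FrobPowerDense)
    (E : HeckeTorsionAction N S) (h4 : GaloisHeckeComm N) (h5 : TorsionUnramified N)
    (h6 : TorsionEichlerShimura N) (h7 : TorsionGalLevel N)
    (hp : p.Prime) (hp𝒪 : (p : 𝒪) ∈ IsLocalRing.maximalIdeal 𝒪) (hpS : p ∈ S)
    (hNS : ∀ q : ℕ, q.Prime → q ∣ N → q ∈ S)
    (H : CuspForm.HeckeGaloisRepDatum N (↑S : Set ℕ) 𝒪 θ T)
    (q : ℕ) (hq : q.Prime) (hqS : q ∉ S) :
    H.ρ.IsUnramifiedAt q :=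
  s31_of_data (frobPowerDense_of_lib hF) (torsionHeckeDataOfExport hp hpS hNS E h4 h6 h7)
    (isUnramifiedOutside_of_export hp hpS hNS E h4 h5 h6 h7) hp hp𝒪 hpS hNS H q hq hqS

end Final

end Fermat.Agent.Gateway.S31Red
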