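import Mathlib
import Fermat.Agent.Gateway.S31.FromExport
import Fermat.Agent.Gateway.Kummer.Basic

/-!
# E7: the Galois action on the torsion of `J₀(N)` has finite level

Every element of the function field `F = ℚ̄ · F₀` (`F₀ ⊆ ℚ((q))`) is fixed by the arithmetic action
of `Gal(ℚ̄/K)` for some finite `K/ℚ` (`exists_level_fixing`). A torsion class `x` with `m x = 0`
has a Kummer representative `u` (`m D = div u`); if `σ` fixes `u` then `σ x - x` has the Kummer
representative `1`, so it vanishes. Hence every torsion point is fixed by some `Gal(ℚ̄/K)`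
(`exists_level_fixing_point`), and if `J₀(N)[m]` is finite there is a uniform level
(`torsionGalLevel_of_finite`).
-/

set_option autoImplicit false

namespace Fermat.Agent.Gateway.S31Red

open ModularCurve AlgebraicCurve Fermat.Agent.Gateway.Kummer

local notation "Qb" => AlgebraicClosure ℚ
local notation "Γℚ" => (AlgebraicClosure ℚ ≃ₐ[ℚ] AlgebraicClosure ℚ)

/-- the compositum of two finite extensions is finite (explicit instances) -/
lemma finiteDimensional_sup' (K₁ K₂ : IntermediateField ℚ Qb) (h₁ : FiniteDimensional ℚ K₁)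
    (h₂ : FiniteDimensional ℚ K₂) : FiniteDimensional ℚ ↥(K₁ ⊔ K₂) :=
  IntermediateField.finiteDimensional_sup K₁ K₂

/-- Every element of `ℚ̄ · F₀` is fixed by the coefficientwise action of an open subgroup. -/
theorem exists_level_fixing (F₀ : IntermediateField ℚ (LaurentSeries ℚ))
    {x : LaurentSeries Qb} (hx : x ∈ laurentBaseChange Qb F₀) :
    ∃ K : IntermediateField ℚ Qb, FiniteDimensional ℚ K ∧
      ∀ σ : Γℚ, (∀ a ∈ K, σ a = a) → coeffMap (σ : Qb →+* Qb) x = x := by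
  rw [mem_laurentBaseChange_iff] at hx
  induction hx using Subfield.closure_induction with
  | mem y hy =>
    rcases hy with ⟨a, rfl⟩ | ⟨z, _, rfl⟩
    · have ha : IsIntegral ℚ a := ((AlgebraicClosure.isAlgebraic ℚ).isAlgebraic a).isIntegral
      refine ⟨IntermediateField.adjoin ℚ {a}, IntermediateField.adjoin.finiteDimensional ha,
        fun σ hσ => ?_⟩
      rw [coeffMap_algebraMap]
      congr 1
      exact hσ a (IntermediateField.mem_adjoin_simple_self ℚ a)
    · refine ⟨⊥, inferInstance, fun σ _ => ?_⟩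
      exact coeffMap_coeffEmb σ z
  | one =>
    exact ⟨⊥, inferInstance, fun σ _ => map_one _⟩
  | add x y _ _ hx hy =>
    obtain ⟨K₁, h₁, hK₁⟩ := hx
    obtain ⟨K₂, h₂, hK₂⟩ := hy
    refine ⟨K₁ ⊔ K₂, finiteDimensional_sup' K₁ K₂ h₁ h₂, fun σ hσ => ?_⟩
    rw [map_add, hK₁ σ fun a ha => hσ a ((le_sup_left : K₁ ≤ K₁ ⊔ K₂) ha),
      hK₂ σ fun a ha => hσ a ((le_sup_right : K₂ ≤ K₁ ⊔ K₂) ha)]
  | neg x _ hx =>
    obtain ⟨K₁, h₁, hK₁⟩ := hx
    exact ⟨K₁, h₁, fun σ hσ => by rw [map_neg, hK₁ σ hσ]⟩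
  | inv x _ hx =>
    obtain ⟨K₁, h₁, hK₁⟩ := hx
    exact ⟨K₁, h₁, fun σ hσ => by rw [map_inv₀, hK₁ σ hσ]⟩
  | mul x y _ _ hx hy =>
    obtain ⟨K₁, h₁, hK₁⟩ := hx
    obtain ⟨K₂, h₂, hK₂⟩ := hy
    refine ⟨K₁ ⊔ K₂, finiteDimensional_sup' K₁ K₂ h₁ h₂, fun σ hσ => ?_⟩
    rw [map_mul, hK₁ σ fun a ha => hσ a ((le_sup_left : K₁ ≤ K₁ ⊔ K₂) ha),
      hK₂ σ fun a ha => hσ a ((le_sup_right : K₂ ≤ K₁ ⊔ K₂) ha)]

/-- Every element of the function field is fixed by the arithmetic action of an open subgroup. -/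
theorem exists_level_fixing_smul (F₀ : IntermediateField ℚ (LaurentSeries ℚ))
    (u : laurentBaseChange Qb F₀) :
    ∃ K : IntermediateField ℚ Qb, FiniteDimensional ℚ K ∧
      ∀ σ : Γℚ, (∀ a ∈ K, σ a = a) → arithmeticGalois F₀ σ • u = u := by
  obtain ⟨K, hK, h⟩ := exists_level_fixing F₀ u.2
  refine ⟨K, hK, fun σ hσ => Subtype.ext ?_⟩
  rw [coe_arithmeticGalois_smul]
  exact h σ hσ

/-- Every torsion point of the Jacobian is fixed by an open subgroup of the Galois group. -/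
theorem exists_level_fixing_point (F₀ : IntermediateField ℚ (LaurentSeries ℚ))
    {m : ℕ} (hm : m ≠ 0) (x : Pic0 Qb (laurentBaseChange Qb F₀)) (hx : m • x = 0) :
    ∃ K : IntermediateField ℚ Qb, FiniteDimensional ℚ K ∧
      ∀ σ : Γℚ, (∀ a ∈ K, σ a = a) → σ • x = x := by
  have hx' : (m : ℤ) • x = 0 := by rwa [natCast_zsmul]
  obtain ⟨u, hu⟩ := exists_isKummerRep hx'
  obtain ⟨K, hK, h⟩ := exists_level_fixing_smul F₀ u
  refine ⟨K, hK, fun σ hσ => ?_⟩
  have h1 : IsKummerRep m (arithmeticGalois F₀ σ • x) (arithmeticGalois F₀ σ • u) :=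
    hu.smul (arithmeticGalois F₀ σ)
  rw [h σ hσ] at h1
  have h2 : IsKummerRep m (arithmeticGalois F₀ σ • x - x) (u / u) := h1.div hu
  rw [div_self hu.ne_zero] at h2
  have h3 : arithmeticGalois F₀ σ • x - x = 0 :=
    h2.eq_zero_of_eq_pow hm (w := 1) (one_pow m).symm
  rw [galois_smul_pic0_def]
  exact sub_eq_zero.mp h3

/-- **E7.** If the torsion of `J₀(N)` is finite, the Galois action on it has finite level. -/
theorem torsionGalLevel_of_finite (N : ℕ) (hfin : ∀ m : ℕ, 0 < m → Finite (JTors N m)) :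
    TorsionGalLevel N := by
  intro m hm
  have := hfin m hm
  have hpt : ∀ x : JTors N m, ∃ K : IntermediateField ℚ Qb, FiniteDimensional ℚ K ∧
      ∀ σ : Γℚ, (∀ a ∈ K, σ a = a) → σ • (x : JZero N) = (x : JZero N) := fun x =>
    exists_level_fixing_point (modularFunctionFieldFull N) hm.ne' (x : JZero N)
      (nsmul_coe_eq_zero x)
  choose K hK hKx using hpt
  refine ⟨⨆ x, K x, ?_, fun σ hσ x hx => ?_⟩
  · have : ∀ x, FiniteDimensional ℚ (K x) := hK
    exact IntermediateField.finiteDimensional_iSup_of_finite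
  · have hxm : x ∈ Pic0.torsion Qb (modularFunctionFieldBar N) m := by
      rw [Pic0.mem_torsion, natCast_zsmul]; exact hx
    exact hKx ⟨x, hxm⟩ σ fun a ha => hσ a ((le_iSup K ⟨x, hxm⟩) ha)

end Fermat.Agent.Gateway.S31Red
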