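import Mathlib
import Fermat.Agent.Gateway.S31.GalLevel
import Fermat.Agent.Gateway.Hecke.Galois

/-!
# S31: the inputs of the export contract that are already theorems

* `galoisHeckeComm N : GaloisHeckeComm N` (E4, from `Gateway/Hecke/Galois.lean`).
* `s31_of_export'`: the frozen statement S31 from Frobenius density, the Hecke action on torsion
  (E2 + E3), finiteness of the torsion (from E1), and the two reduction statements (E5, E6).
-/

set_option autoImplicit false

namespace Fermat.Agent.Gateway.S31Red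

open ModularCurve AlgebraicCurve CuspForm

/-- E4: the Galois action commutes with the Hecke correspondences. -/
theorem galoisHeckeComm (N : ℕ) [NeZero N] : GaloisHeckeComm N := by
  intro ℓ hℓ _ σ x
  have : NeZero ℓ := ⟨hℓ.ne_zero⟩
  exact Fermat.Agent.Gateway.Hecke.galois_hecke_comm_JZero N ℓ σ x

variable {p : ℕ} {N : ℕ} [NeZero N] {S : Finset ℕ}
  {𝒪 : Type} [CommRing 𝒪] [IsDomain 𝒪] [IsDiscreteValuationRing 𝒪]
  [IsAdicComplete (IsLocalRing.maximalIdeal 𝒪) 𝒪]
  {θ : CuspForm.heckeAlgebra N 2 (↑S : Set ℕ) →+* IsLocalRing.ResidueField 𝒪}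
  {T : Type} [CommRing T] [IsLocalRing T] [IsNoetherianRing T]
  [IsAdicComplete (IsLocalRing.maximalIdeal T) T] [Algebra 𝒪 T] [IsLocalHom (algebraMap 𝒪 T)]
  [Module.Finite 𝒪 T] [Module.Free 𝒪 T]

/-- The frozen statement S31 from Frobenius density, E2 + E3, finiteness of torsion, E5, E6. -/
theorem s31_of_export' (hF : Fermat.Agent.Lib.FrobDensity.FrobPowerDense)
    (E : HeckeTorsionAction N S) (hfin : ∀ m : ℕ, 0 < m → Finite (JTors N m))
    (h5 : TorsionUnramified N) (h6 : TorsionEichlerShimura N)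
    (hp : p.Prime) (hp𝒪 : (p : 𝒪) ∈ IsLocalRing.maximalIdeal 𝒪) (hpS : p ∈ S)
    (hNS : ∀ q : ℕ, q.Prime → q ∣ N → q ∈ S)
    (H : CuspForm.HeckeGaloisRepDatum N (↑S : Set ℕ) 𝒪 θ T)
    (q : ℕ) (hq : q.Prime) (hqS : q ∉ S) :
    H.ρ.IsUnramifiedAt q :=
  s31_of_export hF E (galoisHeckeComm N) h5 h6 (torsionGalLevel_of_finite N hfin)
    hp hp𝒪 hpS hNS H q hq hqS

end Fermat.Agent.Gateway.S31Red
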