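/-
P-GATEWAY (d), module S31/Final (helper3): the frozen statement S31 from the export contract
`ExportInputs` (the same single input as for S30, S29, S42), via helper23's `s31_of_export'`.
-/
import Fermat.Agent.Gateway.S30.FromCoreInputs

set_option autoImplicit false

namespace Fermat.Agent.Gateway.Assembly

variable {p : ℕ} {N : ℕ} [NeZero N] {S : Finset ℕ}
  {𝒪 : Type} [CommRing 𝒪] [IsDomain 𝒪] [IsDiscreteValuationRing 𝒪]
  [IsAdicComplete (IsLocalRing.maximalIdeal 𝒪) 𝒪]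
  {θ : CuspForm.heckeAlgebra N 2 (↑S : Set ℕ) →+* IsLocalRing.ResidueField 𝒪}
  {T : Type} [CommRing T] [IsLocalRing T] [IsNoetherianRing T]
  [IsAdicComplete (IsLocalRing.maximalIdeal T) T] [Algebra 𝒪 T] [IsLocalHom (algebraMap 𝒪 T)]
  [Module.Finite 𝒪 T] [Module.Free 𝒪 T]

/-- The frozen statement S31 from the export contract. -/
theorem s31_of_exportInputs (hE : ExportInputs) (hp : p.Prime)
    (hp𝒪 : (p : 𝒪) ∈ IsLocalRing.maximalIdeal 𝒪) (hpS : p ∈ S)
    (hNS : ∀ q : ℕ, q.Prime → q ∣ N → q ∈ S)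
    (H : CuspForm.HeckeGaloisRepDatum N (↑S : Set ℕ) 𝒪 θ T)
    (q : ℕ) (hq : q.Prime) (hqS : q ∉ S) :
    H.ρ.IsUnramifiedAt q := by
  obtain ⟨I⟩ := hE.core N
  exact S31Red.s31_of_export' Fermat.Agent.Lib.FrobDensity.frobPowerDense
    (heckeTorsionActionOfCoreInputs I S hNS) (finite_JTors I) (hE.unram N) (hE.eichlerShimura N)
    hp hp𝒪 hpS hNS H q hq hqS

end Fermat.Agent.Gateway.Assembly
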