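import Mathlib

/-!
# `p`-adic faithfulness from a faithful lattice

Let `R` be a ring acting faithfully on a finitely generated free `ℤ`-module `H`
(`ρ : R →+* Module.End ℤ H` injective). Then for every `p ≠ 0` there is `c0` such that an element
`y` of `R` which maps `H` into `p ^ (n + c0) • H` is divisible by `p ^ n` in `R`
(`exists_saturation_exponent`): the `p`-saturation of the image of `R` in the finitely generated
`ℤ`-module `End H` is finitely generated.

`faithful_of_lattice` is the form used for the torsion of the Jacobian: `M m` is a family of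
abelian groups with `R`-actions `η m`, and `π m : H →+ M m` are equivariant maps with kernel
inside `m • H`.
-/

set_option autoImplicit false

namespace Fermat.Agent.Gateway.S31Red

section Saturation

variable {R H : Type*} [Ring R] [AddCommGroup H] [Module.Free ℤ H] [Module.Finite ℤ H]

omit [Module.Finite ℤ H] in
/-- An endomorphism of a free `ℤ`-module with image inside `d • H` is `d` times an
endomorphism. -/
lemma exists_end_eq_zsmul (d : ℤ) (hd : d ≠ 0) (g : Module.End ℤ H)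
    (hg : ∀ h : H, ∃ h' : H, g h = d • h') : ∃ f : Module.End ℤ H, g = d • f := by
  choose f hf using hg
  have inj : Function.Injective (fun h : H => d • h) := smul_right_injective H hd
  refine ⟨{ toFun := f, map_add' := ?_, map_smul' := ?_ }, ?_⟩
  · intro a b
    apply inj
    simp only
    rw [smul_add, ← hf, ← hf, ← hf, map_add]
  · intro c a
    apply inj
    simp only [RingHom.id_apply]
    rw [← hf, smul_comm, ← hf, map_smul]
  · ext h
    simp only [LinearMap.smul_apply, LinearMap.coe_mk, AddHom.coe_mk]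
    exact hf h

/-- The `p`-saturation of the image of `R` in the endomorphisms of `H`. -/
def psat (ρ : R →+* Module.End ℤ H) (p : ℕ) : Submodule ℤ (Module.End ℤ H) where
  carrier := {f | ∃ (k : ℕ) (y : R), ρ y = ((p : ℤ) ^ k) • f}
  zero_mem' := ⟨0, 0, by simp⟩
  add_mem' := by
    rintro f1 f2 ⟨k1, y1, h1⟩ ⟨k2, y2, h2⟩
    refine ⟨k1 + k2, ((p : ℤ) ^ k2) • y1 + ((p : ℤ) ^ k1) • y2, ?_⟩
    rw [map_add, map_zsmul, map_zsmul, h1, h2, smul_add, smul_smul, smul_smul, pow_add,
      mul_comm ((p : ℤ) ^ k2)]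
  smul_mem' := by
    rintro c f ⟨k, y, h⟩
    refine ⟨k, c • y, ?_⟩
    rw [map_zsmul, h, smul_comm]

omit [Module.Free ℤ H] [Module.Finite ℤ H] in
lemma mem_psat {ρ : R →+* Module.End ℤ H} {p : ℕ} {f : Module.End ℤ H} :
    f ∈ psat ρ p ↔ ∃ (k : ℕ) (y : R), ρ y = ((p : ℤ) ^ k) • f := Iff.rfl

/-- A uniform exponent for the `p`-saturation. -/
lemma exists_uniform_exponent (ρ : R →+* Module.End ℤ H) (p : ℕ) :
    ∃ c0 : ℕ, ∀ f ∈ psat ρ p, ∃ y : R, ρ y = ((p : ℤ) ^ c0) • f := by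
  have hN : IsNoetherian ℤ (Module.End ℤ H) := isNoetherian_of_isNoetherianRing_of_finite ℤ _
  obtain ⟨s, hs⟩ : (psat ρ p).FG := IsNoetherian.noetherian _
  have hmem : ∀ g ∈ s, g ∈ psat ρ p := fun g hg => hs ▸ Submodule.subset_span hg
  choose! k y hky using hmem
  refine ⟨s.sup k, fun f hf => ?_⟩
  rw [← hs] at hf
  induction hf using Submodule.span_induction with
  | mem g hg =>
    have hle : k g ≤ s.sup k := Finset.le_sup hg
    refine ⟨((p : ℤ) ^ (s.sup k - k g)) • y g, ?_⟩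
    rw [map_zsmul, hky g hg, smul_smul, ← pow_add, Nat.sub_add_cancel hle]
  | zero => exact ⟨0, by simp⟩
  | add a b _ _ ha hb =>
    obtain ⟨ya, hya⟩ := ha
    obtain ⟨yb, hyb⟩ := hb
    exact ⟨ya + yb, by rw [map_add, hya, hyb, smul_add]⟩
  | smul c a _ ha =>
    obtain ⟨ya, hya⟩ := ha
    exact ⟨c • ya, by rw [map_zsmul, hya, smul_comm]⟩

/-- **Saturation exponent.** If `R` acts faithfully on a finitely generated free `ℤ`-module `H`,
there is `c0` such that every `y` mapping `H` into `p ^ (n + c0) • H` is divisible by `p ^ n`. -/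
theorem exists_saturation_exponent (ρ : R →+* Module.End ℤ H) (hρ : Function.Injective ρ)
    (p : ℕ) (hp : p ≠ 0) :
    ∃ c0 : ℕ, ∀ (y : R) (n : ℕ), (∀ h : H, ∃ h' : H, ρ y h = ((p : ℤ) ^ (n + c0)) • h') →
      ∃ y' : R, y = ((p : ℤ) ^ n) • y' := by
  obtain ⟨c0, hc0⟩ := exists_uniform_exponent ρ p
  refine ⟨c0, fun y n hy => ?_⟩
  have hpz : ((p : ℤ) ^ (n + c0)) ≠ 0 := pow_ne_zero _ (by exact_mod_cast hp)
  obtain ⟨f, hf⟩ := exists_end_eq_zsmul _ hpz (ρ y) hy
  have hfs : f ∈ psat ρ p := ⟨n + c0, y, hf⟩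
  obtain ⟨y', hy'⟩ := hc0 f hfs
  refine ⟨y', hρ ?_⟩
  rw [map_zsmul, hy', hf, smul_smul, ← pow_add]

/-- **Faithfulness on torsion levels from a faithful lattice.** -/
theorem faithful_of_lattice (ρ : R →+* Module.End ℤ H) (hρ : Function.Injective ρ)
    {M : ℕ → Type*} [∀ m, AddCommGroup (M m)] (η : ∀ m, R →+* AddMonoid.End (M m))
    (π : ∀ m, H →+ M m) (hπ : ∀ (m : ℕ) (y : R) (h : H), π m (ρ y h) = η m y (π m h))
    (hker : ∀ (m : ℕ) (h : H), π m h = 0 → ∃ h' : H, h = m • h')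
    (p : ℕ) (hp : p ≠ 0) :
    ∃ c0 : ℕ, ∀ (y : R) (n : ℕ), η (p ^ (n + c0)) y = 0 → ∃ y' : R, y = ((p : ℤ) ^ n) • y' := by
  obtain ⟨c0, hc0⟩ := exists_saturation_exponent ρ hρ p hp
  refine ⟨c0, fun y n hy => hc0 y n fun h => ?_⟩
  have h0 : π (p ^ (n + c0)) (ρ y h) = 0 := by
    rw [hπ, hy]; rfl
  obtain ⟨h', hh'⟩ := hker _ _ h0
  refine ⟨h', ?_⟩
  rw [hh', ← natCast_zsmul, Nat.cast_pow]

end Saturation

end Fermat.Agent.Gateway.S31Red
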